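import Fermat.Agent.GD.Bases.LocalInv.Inv

/-!
# Local classes of large order from the cyclotomic character
-/

set_option autoImplicit false
set_option linter.unusedSectionVars false
set_option linter.style.haveILetI false

noncomputable section

namespace Fermat.Agent.GD

open Fermat.Agent.Galois (GQ)
open Fermat.Agent.GalRep.Level (cycM)

local notation "ℚb" => AlgebraicClosure ℚ

universe u

theorem carry_cocycle {L : LevelGroup.{u}} {d : ℕ} [NeZero d] {χ : L.G → ZMod d}
    (hχ : ∀ g h, χ (g * h) = χ g + χ h) (g h j : L.G) :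
    carry χ h j + carry χ g (h * j) = carry χ (g * h) j + carry χ g h := by
  have e : ∀ a b, (χ (a * b)).val = ((χ a).val + (χ b).val) % d := fun a b => by
    rw [hχ, ZMod.val_add]
  simp only [carry, e]
  have h1 := carry_assoc d (χ g).val (χ h).val (χ j).val
  have h2 := carry_assoc d (χ h).val (χ j).val (χ g).val
  rw [add_comm (χ g).val (((χ h).val + (χ j).val) % d), h2,
    add_comm ((((χ g).val + (χ h).val) % d + (χ j).val) / d), h1]
  congr 1
  omega

variable {p : ℕ} [hp : Fact p.Prime]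

/-- A natural number as a unit of `ℚ̄`. -/
def natUnit (a : ℕ) (ha : a ≠ 0) : ℚbˣ := Units.mk0 (a : ℚb) (Nat.cast_ne_zero.mpr ha)

theorem smul_natUnit (g : GQ) (a : ℕ) (ha : a ≠ 0) : g • natUnit a ha = natUnit a ha :=
  Units.ext (map_natCast g a)

/-- A constant idele supported over one prime. -/
def placeFn (q : Nat.Primes) (u : ℚbˣ) : IdeleFn := fun v _ =>
  if v = some q then u else 1

theorem placeFn_mem (T : Finset Nat.Primes) (q : Nat.Primes) {u : ℚbˣ} (hu : ∀ g : GQ, g • u = u) :
    placeFn q u ∈ idele T := by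
  refine ⟨fun v d _ x => ?_, ⟨_, (LT T).exists_level.choose_spec, fun v x t _ => rfl⟩,
    (Set.finite_singleton q).subset fun q' hq' => ?_⟩
  · simp only [placeFn]
    split_ifs
    · exact (hu d).symm
    · exact (smul_one d).symm
  · obtain ⟨x, hx⟩ := hq'
    by_contra hne
    exact hx (by
      simp only [placeFn, Option.some.injEq, show q' ≠ q from hne, if_false]
      exact one_mem _)

theorem circ_nsmul_ne_zero {n j : ℕ} (hjn : j < n) {r : ZMod (p ^ n)}
    (h : ¬ p ^ (j + 1) ∣ r.val) : p ^ (n - j - 1) • circ p n r ≠ 0 := fun h0 => by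
  rw [← map_nsmul] at h0
  have h1 := circ_injective n (h0.trans (map_zero _).symm)
  rw [nsmul_eq_mul, ← ZMod.natCast_zmod_val r, ← Nat.cast_mul,
    ZMod.natCast_eq_zero_iff] at h1
  refine h (Nat.dvd_of_mul_dvd_mul_left (pow_pos hp.out.pos (n - j - 1)) ?_)
  rwa [← pow_add, show n - j - 1 + (j + 1) = n by omega]

/-- The global cocycle of a constant idele over one prime. -/
theorem exists_layer_cocycle (hp2 : p ≠ 2) (q : Nat.Primes) (n a : ℕ) (ha : a ≠ 0)
    (T : Finset Nat.Primes) (hT : pPrime p ∈ T) :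
    ∃ W : (LT T).Z2 (Additive (idele T)), SuppAt (some q) W ∧
      (∀ y, locHom (some q) W.1 y =
        carry (L := LT T) (fun g : (LT T).G => chiCyc p n g) (ofD y.1) (ofD y.2) •
          Additive.ofMul (natUnit a ha)) ∧
      gInv (globalInv p hp2) T hT W = circ p n (recFn p n (placeFn q (natUnit a ha))) := by
  haveI : NeZero (p ^ n) := ⟨pow_ne_zero _ hp.out.ne_zero⟩
  let f : idele T := ⟨placeFn q (natUnit a ha), placeFn_mem T q fun g => smul_natUnit g a ha⟩
  have hf : ∀ g : (LT T).G, g • f = f := fun g => Subtype.ext rfl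
  let χ : (LT T).G → ZMod (p ^ n) := fun g => chiCyc p n g
  obtain ⟨Nχ, hNχ, hχc⟩ := chiCyc_const hp2 T hT n
  let w : (LT T).G × (LT T).G → Additive (idele T) := fun y =>
    carry (L := LT T) χ y.1 y.2 • Additive.ofMul f
  have hw : w ∈ (LT T).Z2 (Additive (idele T)) := by
    refine ⟨⟨Nχ, hNχ, fun g g' s hs s' hs' => ?_⟩, fun g h l => ?_⟩
    · simp only [w, carry, χ, hχc g s hs, hχc g' s' hs']
    · have hfix : g • Additive.ofMul f = Additive.ofMul f := congrArg Additive.ofMul (hf g)
      show g • (carry χ h l • Additive.ofMul f) + carry χ g (h * l) • Additive.ofMul f =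
        carry χ (g * h) l • Additive.ofMul f + carry χ g h • Additive.ofMul f
      rw [smul_comm, hfix, ← add_smul, ← add_smul,
        carry_cocycle (fun x y => chiCyc_mul hp2 n x y) g h l]
  let W : (LT T).Z2 (Additive (idele T)) := ⟨w, hw⟩
  have hsupp : SuppAt (some q) W := fun y v' hne g => by
    show ((carry (L := LT T) χ y.1 y.2 • Additive.ofMul f).toMul).1 v' g = 1
    rw [toMul_nsmul, toMul_ofMul, SubmonoidClass.coe_pow, Pi.pow_apply, Pi.pow_apply]
    show placeFn q _ v' g ^ _ = 1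
    rw [placeFn, if_neg hne, one_pow]
  refine ⟨W, hsupp, fun y => ?_, ?_⟩
  · show evalAt (some q) 1 (carry (L := LT T) χ (ofD y.1) (ofD y.2) • Additive.ofMul f) = _
    rw [map_nsmul]
    exact congrArg (_ • Additive.ofMul ·) (if_pos rfl)
  · refine globalInv_inv_beta hp2 T hT n hf _ fun g g' => ?_
    exact map_nsmul (classHom T) _ _

theorem exists_local_class_of_layer (hp2 : p ≠ 2) (q : Nat.Primes) (k n j a : ℕ) (ha : a ≠ 0)
    (hk : k + 1 ≤ n - j)
    (hr : ¬ p ^ (j + 1) ∣ (recFn p n (placeFn q (natUnit a ha))).val)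
    (hdiv : ∀ d ∈ decomp (some q), p ^ j ∣ (chiCyc p n d).val) :
    ∃ y : (LD (some q)).Z2 (Additive ℚbˣ),
      (LD (some q)).IsB2 (Additive ℚbˣ) (p ^ (k + 1) • y.1) ∧
        p ^ k • locInv (globalInv p hp2) (some q) y ≠ 0 ∧
          ∀ T : Finset Nat.Primes, pPrime p ∈ T → ∃ W : (LT T).Z2 (Additive (idele T)),
            SuppAt (some q) W ∧ locHom (some q) W.1 = y.1 := by
  haveI : NeZero (p ^ n) := ⟨pow_ne_zero _ hp.out.ne_zero⟩
  let T : Finset Nat.Primes := {pPrime p}
  have hT : pPrime p ∈ T := Finset.mem_singleton_self _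
  obtain ⟨Nχ, hNχ, hχc⟩ := chiCyc_const hp2 T hT n
  let χ : (LT T).G → ZMod (p ^ n) := fun g => chiCyc p n g
  obtain ⟨W, hsupp, hlocW, hinvW⟩ := exists_layer_cocycle hp2 q n a ha T hT
  let y₀ : (LD (some q)).Z2 (Additive ℚbˣ) := ⟨locHom (some q) W.1, locHom_mem_Z2 _ W.2⟩
  have hinv : locInv (globalInv p hp2) (some q) y₀ =
      circ p n (recFn p n (placeFn q (natUnit a ha))) := by
    show locInvFn (globalInv p hp2) _ y₀ = _
    rw [locInvFn_eq (globalInv p hp2) hT W hsupp
      (by rw [sub_self]; exact LevelGroup.isB2_zero), hinvW]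
  let A : Additive ℚbˣ := Additive.ofMul (natUnit a ha)
  let b : (LD (some q)).G → ℕ := fun d => (chiCyc p n (ofD d)).val / p ^ j
  have hy₀ : (LD (some q)).IsB2 (Additive ℚbˣ) (p ^ (n - j) • y₀.1) := by
    refine ⟨fun d => b d • A, ⟨_, exists_level_decomp hNχ (some q), fun g s hs => ?_⟩,
      funext fun y => ?_⟩
    · show ((chiCyc p n (ofD g * ofD s)).val / p ^ j) • A = _
      rw [show chiCyc p n (ofD g * ofD s) = chiCyc p n (ofD g) from hχc _ _ hs]
    · have hA : ∀ d : (LD (some q)).G, d • A = A := fun d =>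
        congrArg Additive.ofMul (smul_natUnit _ a ha)
      have hloc : y₀.1 y = carry (L := LT T) χ (ofD y.1) (ofD y.2) • A := hlocW y
      have key : b y.1 + b y.2 =
          b (y.1 * y.2) + p ^ (n - j) * carry (L := LT T) χ (ofD y.1) (ofD y.2) := by
        have h1 := Nat.div_mul_cancel (hdiv _ (y.1 : decomp (some q)).2)
        have h2 := Nat.div_mul_cancel (hdiv _ (y.2 : decomp (some q)).2)
        have h3 := Nat.div_mul_cancel (hdiv _ ((y.1 * y.2 : (LD (some q)).G) : decomp (some q)).2)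
        have h4 : (chiCyc p n (ofD y.1)).val + (chiCyc p n (ofD y.2)).val =
            (chiCyc p n (ofD (y.1 * y.2))).val +
              p ^ n * carry (L := LT T) χ (ofD y.1) (ofD y.2) := by
          rw [show chiCyc p n (ofD (y.1 * y.2)) = chiCyc p n (ofD y.1) + chiCyc p n (ofD y.2) from
            chiCyc_mul hp2 n _ _, ZMod.val_add]
          exact (Nat.mod_add_div _ _).symm
        rw [← h1, ← h2, ← h3] at h4
        have hpn : p ^ j * p ^ (n - j) = p ^ n := by rw [← pow_add]; congr 1; omega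
        refine Nat.eq_of_mul_eq_mul_left (pow_pos hp.out.pos j) ?_
        rw [mul_add, mul_add, ← mul_assoc, hpn]
        simp only [b, ofD] at h4 ⊢
        rw [mul_comm (p ^ j), mul_comm (p ^ j), mul_comm (p ^ j)]
        exact h4
      rw [d₁_apply, Pi.smul_apply, hloc, ← mul_smul, smul_comm y.1 (b y.2), hA]
      have h5 := congrArg (fun m : ℕ => m • A) key
      simp only [add_smul] at h5
      linear_combination (norm := abel) h5
  refine ⟨p ^ (n - j - (k + 1)) • y₀, ?_, ?_, fun T' hT' => ?_⟩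
  · rw [AddSubgroup.coe_nsmul, smul_smul, ← pow_add,
      show k + 1 + (n - j - (k + 1)) = n - j by omega]
    exact hy₀
  · rw [map_nsmul, smul_smul, ← pow_add,
      show k + (n - j - (k + 1)) = n - j - 1 by omega, hinv]
    exact circ_nsmul_ne_zero (by omega) hr
  · obtain ⟨W', hs', hl', -⟩ := exists_layer_cocycle hp2 q n a ha T' hT'
    refine ⟨p ^ (n - j - (k + 1)) • W', fun y v' hne g => ?_, ?_⟩
    · show ((p ^ (n - j - (k + 1)) • W'.1 y).toMul).1 v' g = 1
      rw [toMul_nsmul, SubmonoidClass.coe_pow, Pi.pow_apply, Pi.pow_apply, hs' y v' hne g, one_pow]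
    · rw [AddSubgroup.coe_nsmul, AddSubgroup.coe_nsmul, map_nsmul]
      exact congrArg (_ • ·) (funext fun y => (hl' y).trans (hlocW y).symm)

theorem natLog_ne_zero (hp2 : p ≠ 2) {q : ℕ} (hq : q.Prime) (hne : q ≠ p) :
    natLog p (q ^ (p - 1)) q ≠ 0 := fun h => by
  set m := q ^ (p - 1) with hm
  have hc : q.Coprime (p ^ (m + 1)) :=
    Nat.Coprime.pow_right _ ((Nat.coprime_primes hq hp.out).mpr hne)
  rw [natLog, dif_pos hc] at h
  obtain ⟨i, hi⟩ := exists_log p hp2 m (ZMod.unitOfCoprime q hc)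
  rw [cycLog_eq hp2 hi, ZMod.natCast_eq_zero_iff] at h
  have hg : gen1 p m ^ i = 1 :=
    orderOf_dvd_iff_pow_eq_one.mp (by rw [orderOf_gen1 p hp2]; exact h)
  rw [hg] at hi
  have h1 := congrArg Units.val hi
  rw [Units.val_pow_eq_pow_val, ZMod.coe_unitOfCoprime, Units.val_one, ← Nat.cast_pow,
    ← hm] at h1
  replace h1 : ((m : ℕ) : ZMod (p ^ (m + 1))) = ((1 : ℕ) : ZMod (p ^ (m + 1))) :=
    h1.trans Nat.cast_one.symm
  rw [ZMod.natCast_eq_natCast_iff'] at h1
  have h2 : 1 < m := Nat.one_lt_pow (by have := hp.out.two_le; omega) hq.one_lt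
  have h3 : m < p ^ (m + 1) :=
    (Nat.lt_pow_self hp.out.one_lt).trans (Nat.pow_lt_pow_right hp.out.one_lt m.lt_succ_self)
  rw [Nat.mod_eq_of_lt h3, Nat.mod_eq_of_lt (h2.trans h3)] at h1
  omega

/-- At every prime there are local classes of every `p`-power order. -/
theorem exists_local_class (hp2 : p ≠ 2) (q : Nat.Primes) (k : ℕ) :
    ∃ y : (LD (some q)).Z2 (Additive ℚbˣ),
      (LD (some q)).IsB2 (Additive ℚbˣ) (p ^ (k + 1) • y.1) ∧
        p ^ k • locInv (globalInv p hp2) (some q) y ≠ 0 ∧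
          ∀ T : Finset Nat.Primes, pPrime p ∈ T → ∃ W : (LT T).Z2 (Additive (idele T)),
            SuppAt (some q) W ∧ locHom (some q) W.1 = y.1 := by
  rcases eq_or_ne q (pPrime p) with rfl | hne
  · have ha : 1 + p ≠ 0 := by omega
    refine exists_local_class_of_layer hp2 _ k (k + 1) 0 (1 + p) ha (by omega) ?_
      fun d _ => by rw [pow_zero]; exact one_dvd _
    haveI : NeZero (p ^ (k + 1)) := ⟨pow_ne_zero _ hp.out.ne_zero⟩
    set u := natUnit (1 + p) ha with hu_def
    have hval : (placeAt (pPrime p)).valuation (u : ℚb) = 1 := by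
      refine val_natCast_eq_one fun h => ?_
      exact hp.out.one_lt.ne' (Nat.dvd_one.mp ((Nat.dvd_add_left dvd_rfl).mp h))
    have hdec : u ∈ decU (placeAt (pPrime p)) := mem_decU.mpr (natCast_mem _ _)
    have hrec : recFn p (k + 1) (placeFn (pPrime p) u) = -((p - 1 : ℕ) : ZMod (p ^ (k + 1))) := by
      rw [recFn, finsum_eq_zero_of_forall_eq_zero fun q' => ?_, add_zero]
      · congr 1
        rw [placeFn, if_pos rfl, pTerm, dif_pos hdec]
        refine cycLog_eq hp2 (congrArg (· ^ (p - 1)) (Units.ext ?_))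
        rw [unitRes_eq_intCast hp.out (liesOverPrime_pPrime p) ⟨u, hdec⟩ (a := ((1 + p : ℕ) : ℤ))
          hval ?_]
        · rw [gen1, ZMod.coe_unitOfCoprime, Int.cast_natCast]
        · show (placeAt (pPrime p)).valuation ((u : ℚb) - _) ≤ _
          rw [Int.cast_natCast, show (u : ℚb) = ((1 + p : ℕ) : ℚb) from rfl, sub_self, map_zero]
          exact zero_le
      · simp only [placeFn]
        split_ifs with h
        · obtain rfl : q' = pPrime p := Option.some.inj h
          rw [ordAt_of_val_one (pPrime p).2 (placeAt_liesOverPrime _) hval, zero_smul]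
        · rw [Units.val_one, ordAt_of_val_one q'.2 (placeAt_liesOverPrime _) (map_one _), zero_smul]
    rw [hrec]
    intro h
    rw [zero_add, pow_one] at h
    have h1 := congrArg (ZMod.castHom (dvd_pow_self p k.succ_ne_zero) (ZMod p))
      (ZMod.natCast_zmod_val (-((p - 1 : ℕ) : ZMod (p ^ (k + 1)))))
    rw [map_natCast, (ZMod.natCast_eq_zero_iff _ _).mpr h, map_neg, map_natCast,
      Nat.cast_sub hp.out.one_le, ZMod.natCast_self, Nat.cast_one, zero_sub, neg_neg] at h1
    exact zero_ne_one h1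
  · have hne' : (q : ℕ) ≠ p := fun h => hne (Subtype.ext h)
    set n₀ := (q : ℕ) ^ (p - 1) with hn₀
    set n := n₀ + k + 1 with hn
    haveI : NeZero (p ^ n) := ⟨pow_ne_zero _ hp.out.ne_zero⟩
    set r := natLog p n q with hr
    have hrn₀ : ¬ p ^ n₀ ∣ r.val := fun h => natLog_ne_zero hp2 q.2 hne' (by
      rw [← natLog_cast hp2 (show n₀ ≤ n by omega), ← hr, ← ZMod.natCast_zmod_val r, map_natCast]
      exact (ZMod.natCast_eq_zero_iff _ _).mpr h)
    have hr0 : r.val ≠ 0 := fun h => hrn₀ (by rw [h]; exact dvd_zero _)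
    obtain ⟨j, hj⟩ : ∃ j, j = (r.val).factorization p := ⟨_, rfl⟩
    have hjd : p ^ j ∣ r.val := hj ▸ Nat.ordProj_dvd r.val p
    have hjn : j < n₀ := by
      by_contra hlt
      exact hrn₀ ((pow_dvd_pow p (not_lt.mp hlt)).trans hjd)
    have hrec : recFn p n (placeFn q (natUnit q q.2.ne_zero)) = r := by
      refine (recFn_single hp2 n q 1 ?_ ?_ fun q' hq' => ?_).trans (one_smul _ _)
      · rw [placeFn, if_neg fun h => hne (Option.some.inj h).symm, pTerm_one hp2]
      · rw [placeFn, if_pos rfl, zpow_one]; rfl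
      · rw [placeFn, if_neg fun h => hq' (Option.some.inj h)]; exact one_mem _
    refine exists_local_class_of_layer hp2 q k n j q q.2.ne_zero (by omega) ?_ fun d hd => ?_
    · rw [hrec, hj]
      exact Nat.pow_succ_factorization_not_dvd hr0 hp.out
    · obtain ⟨N, hN, hNiff⟩ := exists_cyc_field {pPrime p} (Finset.mem_singleton_self _) n
      have hU : Unram (q := q) ((show Subgroup GQ from N).subgroupOf (decomp (some q))) := by
        refine ⟨⟨_, exists_level_decomp hN (some q), le_rfl⟩,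
          (LD (some q)).normal _ (exists_level_decomp hN (some q)), fun s hs => ?_⟩
        obtain ⟨F, hF, hFN, -⟩ := hN
        exact Subgroup.mem_subgroupOf.mpr ((SetLike.ext_iff.mp hFN _).mpr
          (hF.2 q (Finset.notMem_singleton.mpr hne) (placeAt q) (placeAt_liesOverPrime q) hs))
      obtain ⟨σ, hσ⟩ := Galois.exists_isFrobeniusAt q.2 (placeAt_liesOverPrime q)
      obtain ⟨i, hi⟩ := exists_pow_frobenius hU
        (σ := (⟨σ, hσ.mem_decompositionSubgroup⟩ : decomp (some q))) hσ (⟨d, hd⟩ : decomp (some q))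
      have h0 : chiCyc p n (d⁻¹ * σ ^ i) = 0 :=
        chiCyc_eq_zero hp2 ((hNiff _).mp (Subgroup.mem_subgroupOf.mp hi))
      have hpow : ∀ m : ℕ, chiCyc p n (σ ^ m) = m * r := fun m => by
        induction m with
        | zero => rw [pow_zero, chiCyc_eq_zero hp2 (map_one _), Nat.cast_zero, zero_mul]
        | succ m ih =>
          rw [pow_succ σ m, chiCyc_mul hp2, ih, chiCyc_frobenius q.2 (placeAt_liesOverPrime q) hne' hσ,
            ← hr, Nat.cast_succ, add_mul, one_mul]
      rw [chiCyc_mul hp2, chiCyc_inv hp2, neg_add_eq_zero, hpow] at h0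
      rw [h0, ← ZMod.natCast_zmod_val r, ← Nat.cast_mul, ZMod.val_natCast,
        Nat.dvd_mod_iff (pow_dvd_pow p (by omega))]
      exact hjd.trans (dvd_mul_left _ _)

end Fermat.Agent.GD
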