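import Fermat.Agent.GD.Bases.LocalInv.Transport

/-!
# Local invariants from the global ones
-/

set_option autoImplicit false
set_option linter.unusedSectionVars false

noncomputable section

namespace Fermat.Agent.GD

open Fermat.Agent.Galois (GQ)

local notation "ℚb" => AlgebraicClosure ℚ

variable {p : ℕ} [hp : Fact p.Prime] {T T' : Finset Nat.Primes}

/-- The classes of an idele cocycle. -/
def clsZ2 (T : Finset Nat.Primes) : (LT T).Z2 (Additive (idele T)) →+ (LT T).Z2 (ClassT T) where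
  toFun w := ⟨fun y => classHom T (w.1 y), by
    obtain ⟨N, hN, h⟩ := w.2.1
    exact ⟨⟨N, hN, fun g g' s hs s' hs' => congrArg (classHom T) (h g g' s hs s' hs')⟩,
      fun g h j => by
        show g • classHom T (w.1 (h, j)) + classHom T (w.1 (g, h * j)) =
          classHom T (w.1 (g * h, j)) + classHom T (w.1 (g, h))
        rw [← classHom_smul, ← map_add, ← map_add, w.2.2 g h j]⟩⟩
  map_zero' := Subtype.ext (funext fun _ => map_zero _)
  map_add' w w' := Subtype.ext (funext fun _ => map_add _ _ _)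

theorem classHom_isB2 {w : (LT T).G × (LT T).G → Additive (idele T)}
    (hw : (LT T).IsB2 (Additive (idele T)) w) :
    (LT T).IsB2 (ClassT T) (fun y => classHom T (w y)) := by
  obtain ⟨b, ⟨N, hN, hb⟩, rfl⟩ := hw
  refine ⟨fun g => classHom T (b g), ⟨N, hN, fun g s hs => congrArg _ (hb g s hs)⟩,
    funext fun y => ?_⟩
  show y.1 • classHom T (b y.2) - classHom T (b (y.1 * y.2)) + classHom T (b y.1) = _
  rw [← classHom_smul, ← map_sub, ← map_add]
  rfl

/-- The inclusion on idele cocycles. -/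
def inclZ2 (h : T ⊆ T') :
    (LT T).Z2 (Additive (idele T)) →+ (LT T').Z2 (Additive (idele T')) where
  toFun w := ⟨fun y => inclHom h (w.1 y), by
    obtain ⟨N, hN, hw⟩ := w.2.1
    exact ⟨⟨N, level_mono h hN, fun g g' s hs s' hs' => congrArg (inclHom h) (hw g g' s hs s' hs')⟩,
      fun g g' g'' => by
        show g • inclHom h (w.1 (g', g'')) + inclHom h (w.1 (g, g' * g'')) =
          inclHom h (w.1 (g * g', g'')) + inclHom h (w.1 (g, g'))
        rw [show g • inclHom h (w.1 (g', g'')) =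
            inclHom h ((show (LT T).G from g) • w.1 (g', g'')) from rfl, ← map_add, ← map_add]
        exact congrArg (inclHom h) (w.2.2 g g' g'')⟩⟩
  map_zero' := Subtype.ext (funext fun _ => map_zero _)
  map_add' w w' := Subtype.ext (funext fun _ => map_add _ _ _)

theorem locHom_inclZ2 (h : T ⊆ T') (v : Place) (w : (LT T).Z2 (Additive (idele T))) :
    locHom v (inclZ2 h w).1 = locHom v w.1 := rfl

variable (G : GlobalInv p)

/-- The invariant of an idele cocycle. -/
def gInv (T : Finset Nat.Primes) (hT : pPrime p ∈ T) :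
    (LT T).Z2 (Additive (idele T)) →+ AddCircle (1 : ℚ) :=
  (G.glob T hT).inv.comp (clsZ2 T)

theorem gInv_incl (hT : pPrime p ∈ T) (h : T ⊆ T') (w : (LT T).Z2 (Additive (idele T))) :
    gInv G T hT w = gInv G T' (h hT) (inclZ2 h w) := by
  obtain ⟨N, hN, hw⟩ := w.2.1
  exact G.compat T T' hT h (fun y => (w.1 y).toMul)
    ⟨N, hN, fun g g' s hs s' hs' => congrArg Additive.toMul (hw g g' s hs s' hs')⟩
    (clsZ2 T w).2 (clsZ2 T' (inclZ2 h w)).2

theorem gInv_eq_of_local (hT : pPrime p ∈ T) (w w' : (LT T).Z2 (Additive (idele T)))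
    (h : ∀ v, (LD v).IsB2 (Additive ℚbˣ) (locHom v w.1 - locHom v w'.1)) :
    gInv G T hT w = gInv G T hT w' := by
  rw [← sub_eq_zero, ← map_sub]
  refine (G.glob T hT).inv_d₁ _ (classHom_isB2 (isB2_of_local (w - w') fun v => ?_))
  rw [AddSubgroup.coe_sub, map_sub]
  exact h v

/-- A cocycle supported at one place. -/
def SuppAt (v : Place) (w : (LT T).Z2 (Additive (idele T))) : Prop :=
  ∀ y, ∀ v' ≠ v, ∀ g, (w.1 y).toMul.1 v' g = 1

theorem SuppAt.incl {v : Place} {w : (LT T).Z2 (Additive (idele T))} (hw : SuppAt v w)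
    (h : T ⊆ T') : SuppAt v (inclZ2 h w) := hw

theorem SuppAt.isB2 {v v' : Place} {w : (LT T).Z2 (Additive (idele T))} (hw : SuppAt v w)
    (hne : v' ≠ v) : (LD v').IsB2 (Additive ℚbˣ) (locHom v' w.1) :=
  locHom_isB2_of_eq_one v' fun y g => hw y v' hne g

theorem exists_supp (v : Place) (z : (LD v).Z2 (Additive ℚbˣ)) :
    ∃ T' : Finset Nat.Primes, pPrime p ∈ T' ∧ ∃ w : (LT T').Z2 (Additive (idele T')),
      SuppAt v w ∧ (LD v).IsB2 (Additive ℚbˣ) (locHom v w.1 - z.1) := by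
  obtain ⟨T', hT', -, w, hw, hwz⟩ := exists_supported_cocycle {pPrime p} v z
  exact ⟨T', hT' (Finset.mem_singleton_self _), w, hw, hwz⟩

/-- The local invariant. -/
def locInvFn (v : Place) (z : (LD v).Z2 (Additive ℚbˣ)) : AddCircle (1 : ℚ) :=
  gInv G (exists_supp (p := p) v z).choose (exists_supp (p := p) v z).choose_spec.1
    (exists_supp (p := p) v z).choose_spec.2.choose

theorem locInvFn_eq {v : Place} {z : (LD v).Z2 (Additive ℚbˣ)} (hT : pPrime p ∈ T)
    (w : (LT T).Z2 (Additive (idele T))) (hw : SuppAt v w)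
    (hwz : (LD v).IsB2 (Additive ℚbˣ) (locHom v w.1 - z.1)) :
    locInvFn G v z = gInv G T hT w := by
  set T₁ := (exists_supp (p := p) v z).choose
  obtain ⟨hT₁, hs⟩ := (exists_supp (p := p) v z).choose_spec
  obtain ⟨hw₁, hwz₁⟩ := hs.choose_spec
  show gInv G T₁ _ hs.choose = _
  rw [gInv_incl G _ (Finset.subset_union_left : T₁ ⊆ T₁ ∪ T),
    gInv_incl G hT (Finset.subset_union_right : T ⊆ T₁ ∪ T)]
  refine gInv_eq_of_local G _ _ _ fun v' => ?_
  rw [locHom_inclZ2, locHom_inclZ2]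
  rcases eq_or_ne v' v with rfl | hne
  · have := hwz₁.sub hwz
    rwa [sub_sub_sub_cancel_right] at this
  · exact (hw₁.isB2 hne).sub (hw.isB2 hne)

/-- The local invariant, as a homomorphism. -/
def locInv (v : Place) : (LD v).Z2 (Additive ℚbˣ) →+ AddCircle (1 : ℚ) :=
  AddMonoidHom.mk' (locInvFn G v) fun z z' => by
    obtain ⟨T₁, hT₁, w, hw, hwz⟩ := exists_supp (p := p) v z
    obtain ⟨T₂, hT₂, w', hw', hwz'⟩ := exists_supp (p := p) v z'
    have h₁ : T₁ ⊆ T₁ ∪ T₂ := Finset.subset_union_left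
    have h₂ : T₂ ⊆ T₁ ∪ T₂ := Finset.subset_union_right
    rw [locInvFn_eq G hT₁ w hw hwz, locInvFn_eq G hT₂ w' hw' hwz', gInv_incl G hT₁ h₁,
      gInv_incl G hT₂ h₂, ← map_add]
    refine locInvFn_eq G (h₁ hT₁) _ (fun y v' hne g => ?_) ?_
    · show (w.1 y).toMul.1 v' g * (w'.1 y).toMul.1 v' g = 1
      rw [hw y v' hne g, hw' y v' hne g, mul_one]
    · have := hwz.add hwz'
      rw [AddSubgroup.coe_add, map_add, locHom_inclZ2, locHom_inclZ2]
      convert this using 1
      rw [AddSubgroup.coe_add]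
      abel

theorem locInv_d₁ (v : Place) (z : (LD v).Z2 (Additive ℚbˣ))
    (hz : (LD v).IsB2 (Additive ℚbˣ) z.1) : locInv G v z = 0 := by
  show locInvFn G v z = 0
  rw [locInvFn_eq G (T := {pPrime p}) (Finset.mem_singleton_self _) 0 (fun _ _ _ _ => rfl)
    (by rw [ZeroMemClass.coe_zero, map_zero, zero_sub]; exact hz.neg), map_zero]

/-- An unramified unit component gives a trivial local class. -/
theorem locHom_isB2_of_unit (z : (LT T).Z2 (Additive (idele T))) {q : Nat.Primes} (hq : q ∉ T)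
    (hu : ∀ y g, (z.1 y).toMul.1 (some q) g ∈ (placeAt q).unitGroup) :
    (LD (some q)).IsB2 (Additive ℚbˣ) (locHom (some q) z.1) := by
  obtain ⟨⟨N₁, hN₁, hzN⟩, hc⟩ := z.2
  have hfin : (Set.range z.1).Finite := by
    haveI := (LT T).finiteIndex N₁ hN₁
    haveI : Finite ((LT T).G ⧸ N₁) := Subgroup.finite_quotient_of_finiteIndex
    refine (Set.finite_range fun c : ((LT T).G ⧸ N₁) × ((LT T).G ⧸ N₁) =>
      z.1 (c.1.out, c.2.out)).subset ?_
    rintro _ ⟨⟨g, g'⟩, rfl⟩
    obtain ⟨s, hs⟩ := QuotientGroup.mk_out_eq_mul N₁ g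
    obtain ⟨s', hs'⟩ := QuotientGroup.mk_out_eq_mul N₁ g'
    exact ⟨((g : (LT T).G ⧸ N₁), (g' : (LT T).G ⧸ N₁)), by
      simp only [hs, hs', hzN g g' s s.2 s' s'.2]⟩
  obtain ⟨N₂, hN₂, hfix⟩ := exists_level_fix (smooth_idele T) hfin
  have hN : (LT T).IsLevel (N₁ ⊓ N₂) := (LT T).inf _ _ hN₁ hN₂
  obtain ⟨F, hF, hFN, hn⟩ := hN
  let ND : Subgroup (LD (some q)).G :=
    (show Subgroup GQ from N₁ ⊓ N₂).subgroupOf (decomp (some q))
  have hND : (LD (some q)).IsLevel ND := exists_level_decomp ((LT T).inf _ _ hN₁ hN₂) (some q)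
  have hI : ∀ s : (LD (some q)).G, s.1 ∈ (placeAt q).inertiaSubgroupIn ℚ → s ∈ ND := fun s hs => by
    refine Subgroup.mem_subgroupOf.mpr ?_
    exact (SetLike.ext_iff.mp hFN _).mpr (hF.2 q hq (placeAt q) (placeAt_liesOverPrime q) hs)
  obtain ⟨b, -, hbN, hbd⟩ := units_h2 q (⊤ : Subgroup (LD (some q)).G) ND hND hI le_top
    (fun y => (locHom (some q) z.1 (y.1.1, y.2.1)).toMul)
    (fun g h j => congrArg Additive.toMul ((locHom_mem_Z2 (some q) z.2).2 g.1 h.1 j.1))
    (fun g h s t hs ht => congrArg (fun f => (evalAt (some q) 1 f).toMul)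
      (hzN _ _ _ (Subgroup.mem_subgroupOf.mp hs).1 _ (Subgroup.mem_subgroupOf.mp ht).1))
    (fun y => hu _ 1) (fun y s hs => by
      have h1 := evalAt_one_smul (T := T) (some q) s (z.1 (ofD y.1.1, ofD y.2.1))
      rw [hfix _ ⟨_, rfl⟩ _ (Subgroup.mem_subgroupOf.mp hs).2] at h1
      exact congrArg Additive.toMul h1.symm)
  refine ⟨fun g => Additive.ofMul (b ⟨g, trivial⟩), ⟨ND, hND, fun g s hs =>
    congrArg Additive.ofMul (hbN ⟨g, trivial⟩ ⟨s, trivial⟩ hs)⟩, funext fun y => ?_⟩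
  have h2 := hbd ⟨y.1, trivial⟩ ⟨y.2, trivial⟩
  show _ = locHom (some q) z.1 (y.1, y.2)
  exact (congrArg Additive.ofMul h2).symm

/-- The sum formula. -/
theorem gInv_eq_sum (hT : pPrime p ∈ T) (z : (LT T).Z2 (Additive (idele T)))
    (hu : ∀ y, ∀ q ∉ T, ∀ g, (z.1 y).toMul.1 (some q) g ∈ (placeAt q).unitGroup) :
    gInv G T hT z = ∑ v ∈ placesOf T, locInv G v ⟨_, locHom_mem_Z2 v z.2⟩ := by
  classical
  choose T₁ hT₁ w hw hwz using fun v => exists_supp (p := p) v ⟨_, locHom_mem_Z2 v z.2⟩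
  let T₃ : Finset Nat.Primes := T ∪ (placesOf T).biUnion T₁
  have h0 : T ⊆ T₃ := Finset.subset_union_left
  have h1 : ∀ v ∈ placesOf T, T₁ v ⊆ T₃ := fun v hv =>
    (Finset.subset_biUnion_of_mem T₁ hv).trans Finset.subset_union_right
  have hloc : ∀ v : {x // x ∈ placesOf T}, locInv G v.1 ⟨_, locHom_mem_Z2 v.1 z.2⟩ =
      gInv G T₃ (h0 hT) (inclZ2 (h1 v.1 v.2) (w v.1)) := fun v =>
    (locInvFn_eq G (hT₁ v.1) (w v.1) (hw v.1) (hwz v.1)).trans
      (gInv_incl G (hT₁ v.1) (h1 v.1 v.2) (w v.1))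
  rw [gInv_incl G hT h0, ← Finset.sum_attach, Finset.sum_congr rfl fun v _ => hloc v, ← map_sum]
  refine gInv_eq_of_local G _ _ _ fun u => ?_
  rw [locHom_inclZ2, AddSubgroup.val_finsetSum, map_sum]
  by_cases hu' : u ∈ placesOf T
  · rw [← Finset.sum_erase_add _ _ (Finset.mem_attach _ ⟨u, hu'⟩)]
    have hrest : (LD u).IsB2 (Additive ℚbˣ) (∑ v ∈ (placesOf T).attach.erase ⟨u, hu'⟩,
        locHom u (inclZ2 (h1 v.1 v.2) (w v.1)).1) := by
      refine Finset.sum_induction _ _ (fun a b ha hb => ha.add hb) LevelGroup.isB2_zero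
        fun v hv => (hw v.1).isB2 fun e => (Finset.ne_of_mem_erase hv) (Subtype.ext e.symm)
    have := (hwz u).neg.sub hrest
    convert this using 1
    rw [locHom_inclZ2]
    abel
  · have hrest : (LD u).IsB2 (Additive ℚbˣ) (∑ v ∈ (placesOf T).attach,
        locHom u (inclZ2 (h1 v.1 v.2) (w v.1)).1) := by
      refine Finset.sum_induction _ _ (fun a b ha hb => ha.add hb) LevelGroup.isB2_zero
        fun v hv => (hw v.1).isB2 fun e => hu' (e ▸ v.2)
    refine LevelGroup.IsB2.sub ?_ hrest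
    rcases u with _ | q
    · exact absurd mem_placesOf_none hu'
    · exact locHom_isB2_of_unit z (fun h => hu' (mem_placesOf_some.mpr h))
        fun y g => hu y q (fun h => hu' (mem_placesOf_some.mpr h)) g

end Fermat.Agent.GD
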