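import Fermat.Agent.GD.GW.Induce
import Fermat.Agent.GD.Engine.CorRes

/-!
# Idele cocycles and their local components
-/

set_option autoImplicit false
set_option linter.unusedSectionVars false

noncomputable section

namespace Fermat.Agent.GD

open Fermat.Agent.Galois (GQ)

local notation "ℚb" => AlgebraicClosure ℚ

universe u w

theorem IsB2.ofTop {L : LevelGroup.{u}} {C : Type w} [AddCommGroup C] [DistribMulAction L.G C]
    {z : L.G × L.G → C}
    (h : (L.sub ⊤).IsB2 C (fun y : (⊤ : Subgroup L.G) × (⊤ : Subgroup L.G) => z (y.1.1, y.2.1))) :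
    L.IsB2 C z := by
  obtain ⟨b, ⟨_, ⟨N, hN, rfl⟩, hb⟩, e⟩ := h
  refine ⟨fun g => b ⟨g, trivial⟩, ⟨N, hN, fun g s hs => hb ⟨g, trivial⟩ ⟨s, trivial⟩ hs⟩,
    funext fun y => ?_⟩
  exact congrFun e ((⟨y.1, trivial⟩ : (⊤ : Subgroup L.G)), (⟨y.2, trivial⟩ : (⊤ : Subgroup L.G)))

theorem IsB2.res {L : LevelGroup.{u}} {C : Type w} [AddCommGroup C] [DistribMulAction L.G C]
    (H : Subgroup L.G) {z : L.G × L.G → C} (h : L.IsB2 C z) :
    (L.sub H).IsB2 C (fun y : H × H => z (y.1.1, y.2.1)) := by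
  obtain ⟨b, ⟨N, hN, hb⟩, e⟩ := h
  exact ⟨fun g => b g.1, ⟨_, ⟨N, hN, rfl⟩, fun g s hs => hb _ _ hs⟩,
    funext fun y => congrFun e (y.1.1, y.2.1)⟩

variable {p : ℕ} [hp : Fact p.Prime] {T : Finset Nat.Primes}

theorem exists_level_decomp {N : Subgroup (LT T).G} (hN : (LT T).IsLevel N) (v : Place) :
    (LD v).IsLevel ((show Subgroup GQ from N).subgroupOf (decomp v)) := by
  obtain ⟨F, hF, hFN, hn⟩ := hN
  exact ⟨N, ⟨F, hF.1, hFN, hn⟩, rfl⟩

/-- The local cochain at a place of a cochain of ideles. -/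
def locHom (v : Place) :
    ((LT T).G × (LT T).G → Additive (idele T)) →+ ((LD v).G × (LD v).G → Additive ℚbˣ) where
  toFun w y := evalAt v 1 (w ((y.1 : decomp v).1, (y.2 : decomp v).1))
  map_zero' := funext fun _ => map_zero _
  map_add' w w' := funext fun _ => map_add _ _ _

theorem locHom_eq (v : Place) (w : (LT T).G × (LT T).G → Additive (idele T)) :
    locHom v w = locCochain v (fun x => (w x).toMul) := rfl

/-- An element of a decomposition group in the Galois group. -/
abbrev ofD {v : Place} (d : (LD v).G) : GQ := (d : decomp v).1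

theorem evalAt_one_smul (v : Place) (d : (LD v).G) (f : Additive (idele T)) :
    evalAt v 1 ((show (LT T).G from ofD d) • f) = ofD d • evalAt v 1 f := by
  refine (evalAt_smul v 1 (ofD d) f).trans ?_
  rw [one_mul]
  conv_lhs => rw [show ofD d = ofD d * 1 from (mul_one _).symm]
  exact evalAt_decomp v (d : decomp v).2 1 f

theorem locHom_mem_Z2 (v : Place) {w : (LT T).G × (LT T).G → Additive (idele T)}
    (hw : w ∈ (LT T).Z2 (Additive (idele T))) :
    locHom v w ∈ (LD v).Z2 (Additive ℚbˣ) := by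
  obtain ⟨⟨N, hN, h⟩, hc⟩ := hw
  refine ⟨⟨_, exists_level_decomp hN v, fun g g' s hs s' hs' => ?_⟩, fun g g' g'' => ?_⟩
  · exact congrArg (evalAt v 1) (h _ _ _ hs _ hs')
  · have h1 := congrArg (evalAt v 1) (hc ((g : decomp v).1) ((g' : decomp v).1) ((g'' : decomp v).1))
    rw [map_add, map_add, evalAt_one_smul] at h1
    exact h1

theorem locHom_isB2 (v : Place) {w : (LT T).G × (LT T).G → Additive (idele T)}
    (hw : (LT T).IsB2 (Additive (idele T)) w) : (LD v).IsB2 (Additive ℚbˣ) (locHom v w) := by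
  obtain ⟨b, ⟨N, hN, hb⟩, rfl⟩ := hw
  refine ⟨fun g => evalAt v 1 (b (g : decomp v).1), ⟨_, exists_level_decomp hN v, fun g s hs => ?_⟩,
    funext fun y => ?_⟩
  · exact congrArg (evalAt v 1) (hb _ _ hs)
  · show _ = evalAt v 1 ((show (LT T).G from (y.1 : decomp v).1) • b _ - b _ + b _)
    rw [map_add, map_sub, evalAt_one_smul]
    rfl

/-- An idele cocycle is a coboundary as soon as its components at the base points are. -/
theorem isB2_of_local (z : (LT T).Z2 (Additive (idele T)))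
    (hz : ∀ v, (LD v).IsB2 (Additive ℚbˣ) (locHom v z.1)) :
    (LT T).IsB2 (Additive (idele T)) z.1 := by
  refine IsB2.ofTop (idele_h2_loc T ⊤ ⟨_, (LT T).exists_level.choose_spec, le_top⟩
    ⟨fun y => z.1 (y.1.1, y.2.1), res_mem_Z2 z.2⟩ fun v g => ?_)
  have h1 : (LD v).IsB2 (Additive ℚbˣ) (locHom v
      (fun y => (show (LT T).G from g) • z.1 ((show (LT T).G from g)⁻¹ * y.1 * (show (LT T).G from g),
        (show (LT T).G from g)⁻¹ * y.2 * (show (LT T).G from g)))) := by
    have h2 := locHom_isB2 v (isB2_conj z.2 (show (LT T).G from g))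
    rw [map_sub] at h2
    have := h2.add (hz v)
    rwa [sub_add_cancel] at this
  refine (congrArg _ ?_).mpr (IsB2.res _ h1)
  funext y
  show evalAt v g _ = evalAt v 1 _
  rw [evalAt_smul, one_mul]
  refine congrArg (evalAt v g) (congrArg z.1 (Prod.ext ?_ ?_))
  · show g⁻¹ * _ * g⁻¹⁻¹ = g⁻¹ * _ * g
    rw [inv_inv]
    rfl
  · show g⁻¹ * _ * g⁻¹⁻¹ = g⁻¹ * _ * g
    rw [inv_inv]
    rfl

/-- A trivial component gives a trivial local class. -/
theorem locHom_isB2_of_eq_one (v : Place) {w : (LT T).G × (LT T).G → Additive (idele T)}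
    (h : ∀ y g, (w y).toMul.1 v g = 1) : (LD v).IsB2 (Additive ℚbˣ) (locHom v w) := by
  have : locHom v w = 0 := funext fun y => congrArg Additive.ofMul (h _ 1)
  rw [this]
  exact LevelGroup.isB2_zero

end Fermat.Agent.GD
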